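/-
FD = Frobenius density theorem, existence form (architect: helper4).
Statements only (`def Stmt_* : Prop`) + the glue theorem is in `FD/Main.lean`.

Every work package proves `theorem xxx : Stmt_xxx` in its own new file, importing this file.
-/
import Mathlib
import Fermat.Prelude.Def_EllipticCurve_FrobeniusTrace

set_option autoImplicit false

namespace Fermat.Agent.FD

open NumberField

/-- `∑ₙ c n * n^{-s} = δ log (1/(s-1)) + O(1)` as `s → 1⁺` (and the series converges for `s > 1`). -/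
def HasLogDens (c : ℕ → ℝ) (δ : ℝ) : Prop :=
  (∀ s : ℝ, 1 < s → Summable (fun n : ℕ => c n * (n : ℝ) ^ (-s))) ∧
  ∃ B η : ℝ, 0 < η ∧ ∀ s : ℝ, 1 < s → s ≤ 1 + η →
    |∑' n : ℕ, c n * (n : ℝ) ^ (-s) - δ * Real.log (1 / (s - 1))| ≤ B

/-- The number of prime ideals of `𝓞 K` of norm `ℓ`. -/
noncomputable def degOneCount (K : Type) [Field K] [NumberField K] (ℓ : ℕ) : ℕ :=
  Nat.card {Q : Ideal (𝓞 K) // Q.IsPrime ∧ Ideal.absNorm Q = ℓ}

/-- (A) analytic input: the degree one primes of any number field have log-density `1`. -/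
def Stmt_A : Prop :=
  ∀ (K : Type) [Field K] [NumberField K] (S : Finset ℕ),
    HasLogDens (fun ℓ => if ℓ.Prime ∧ ℓ ∉ S then (degOneCount K ℓ : ℝ) else 0) 1

/-- `h` acts as `x ↦ x ^ ℓ` modulo `P`. -/
def IsFrobAt {L : Type} [Field L] [NumberField L] (P : Ideal (𝓞 L)) (ℓ : ℕ) (h : L ≃ₐ[ℚ] L) :
    Prop :=
  ∀ x : 𝓞 L, h • x - x ^ ℓ ∈ P

/-- The primes of `𝓞 L` above `ℓ` having a Frobenius element in the set `T`. -/
def FrobPrimes (L : Type) [Field L] [NumberField L] (ℓ : ℕ) (T : Set (L ≃ₐ[ℚ] L)) : Type :=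
  {P : Ideal (𝓞 L) // P.IsPrime ∧ (ℓ : 𝓞 L) ∈ P ∧ ∃ h ∈ T, IsFrobAt P ℓ h}

/-- (B) the dictionary: outside a finite set `S₀` of primes (the ramified ones) Frobenius elements
are unique, and degree one primes of the fixed field of `H` correspond to `H`-orbits of primes of
`L` with Frobenius in `H`; `f ℓ` is the common residue degree of the primes of `L` above `ℓ`. -/
def Stmt_B : Prop :=
  ∀ (L : Type) [Field L] [NumberField L] [IsGalois ℚ L],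
    ∃ (S₀ : Finset ℕ) (f : ℕ → ℕ), ∀ ℓ : ℕ, ℓ.Prime → ℓ ∉ S₀ →
      Finite {P : Ideal (𝓞 L) // P.IsPrime ∧ (ℓ : 𝓞 L) ∈ P} ∧
      (∀ P : Ideal (𝓞 L), P.IsPrime → (ℓ : 𝓞 L) ∈ P →
        ∀ h h' : L ≃ₐ[ℚ] L, IsFrobAt P ℓ h → IsFrobAt P ℓ h' → h = h') ∧
      ∀ H : Subgroup (L ≃ₐ[ℚ] L),
        Nat.card H * degOneCount (IntermediateField.fixedField H) ℓ =
          f ℓ * Nat.card (FrobPrimes L ℓ (H : Set (L ≃ₐ[ℚ] L)))

/-- (B1) uniqueness of Frobenius elements at unramified primes. -/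
def Stmt_B1 : Prop :=
  ∀ (L : Type) [Field L] [NumberField L] [IsGalois ℚ L] (ℓ : ℕ), ℓ.Prime → ¬ (ℓ : ℤ) ∣ discr L →
    ∀ P : Ideal (𝓞 L), P.IsPrime → (ℓ : 𝓞 L) ∈ P →
      ∀ h h' : L ≃ₐ[ℚ] L, IsFrobAt P ℓ h → IsFrobAt P ℓ h' → h = h'

/-- (B2) the number of primes of `L` above a degree one prime `Q` of the fixed field of `H`. -/
def Stmt_B2 : Prop :=
  ∀ (L : Type) [Field L] [NumberField L] [IsGalois ℚ L] (ℓ : ℕ), ℓ.Prime → ¬ (ℓ : ℤ) ∣ discr L →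
    ∀ (H : Subgroup (L ≃ₐ[ℚ] L)) (Q : Ideal (𝓞 (IntermediateField.fixedField H))),
      Q.IsPrime → Ideal.absNorm Q = ℓ →
      (Ideal.span {(ℓ : ℤ)}).inertiaDegIn (𝓞 L) *
        Nat.card {P : Ideal (𝓞 L) // P.IsPrime ∧ P.under (𝓞 (IntermediateField.fixedField H)) = Q}
          = Nat.card H

/-- (B3) `P` has a Frobenius element in `H` iff the prime below `P` in the fixed field of `H` has
degree one. -/
def Stmt_B3 : Prop :=
  ∀ (L : Type) [Field L] [NumberField L] [IsGalois ℚ L] (ℓ : ℕ), ℓ.Prime →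
    ∀ (H : Subgroup (L ≃ₐ[ℚ] L)) (P : Ideal (𝓞 L)), P.IsPrime → (ℓ : 𝓞 L) ∈ P →
      ((∃ h ∈ H, IsFrobAt P ℓ h) ↔
        Ideal.absNorm (P.under (𝓞 (IntermediateField.fixedField H))) = ℓ)

/-- (C) Frobenius density at finite level. -/
def Stmt_FDfin : Prop :=
  ∀ (L : Type) [Field L] [NumberField L] [IsGalois ℚ L] (g : L ≃ₐ[ℚ] L) (S : Finset ℕ),
    ∃ ℓ : ℕ, ℓ.Prime ∧ ℓ ∉ S ∧ ∃ P : Ideal (𝓞 L), P.IsPrime ∧ (ℓ : 𝓞 L) ∈ P ∧
      ∃ h : L ≃ₐ[ℚ] L, IsFrobAt P ℓ h ∧ (∀ h', IsFrobAt P ℓ h' → h' = h) ∧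
        Subgroup.zpowers h = Subgroup.zpowers g

/-- (D) bridge: above every prime `P` of a finite normal `L ⊆ ℚ̄` there are a valuation subring of
`ℚ̄` and a Frobenius lift. -/
def Stmt_D : Prop :=
  ∀ (L : IntermediateField ℚ (AlgebraicClosure ℚ)) [NumberField L] [Normal ℚ L]
    (ℓ : ℕ) (P : Ideal (𝓞 L)), ℓ.Prime → P.IsPrime → (ℓ : 𝓞 L) ∈ P →
    ∃ (A : ValuationSubring (AlgebraicClosure ℚ))
      (σ : AlgebraicClosure ℚ ≃ₐ[ℚ] AlgebraicClosure ℚ),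
      A.LiesOverPrime ℓ ∧ A.IsFrobeniusAt σ ℓ ∧ IsFrobAt P ℓ (σ.restrictNormal L)

/-- The final statement: Frobenius density, existence form, in the prelude's language. -/
def Stmt_FD : Prop :=
  ∀ (L : IntermediateField ℚ (AlgebraicClosure ℚ)) [FiniteDimensional ℚ L] [Normal ℚ L]
    (g : AlgebraicClosure ℚ ≃ₐ[ℚ] AlgebraicClosure ℚ) (S : Finset ℕ),
    ∃ (ℓ : ℕ) (A : ValuationSubring (AlgebraicClosure ℚ))
      (σ : AlgebraicClosure ℚ ≃ₐ[ℚ] AlgebraicClosure ℚ) (k k' : ℕ),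
      ℓ.Prime ∧ ℓ ∉ S ∧ A.LiesOverPrime ℓ ∧ A.IsFrobeniusAt σ ℓ ∧
      (∀ x ∈ L, g x = (σ ^ k) x) ∧ (∀ x ∈ L, σ x = (g ^ k') x)

end Fermat.Agent.FD
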