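/-
FD package A (helper65): the degree one primes of a number field have log-density `1`.
-/
import Fermat.Agent.FD.Interface
import Fermat.Agent.S14.EulerReal
import Fermat.Agent.S14.GL3

set_option autoImplicit false

namespace Fermat.Agent.FD

open NumberField Ideal Fermat.Agent.S14

section
variable (K : Type) [Field K] [NumberField K]

open Classical in
/-- the part of the prime ideal sum coming from primes of prime norm outside `S` -/
noncomputable def A_goodTerm (S : Finset ℕ) (s : ℝ) (q : {q : Ideal (𝓞 K) // q.IsPrime ∧ q ≠ ⊥}) :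
    ℝ :=
  if (absNorm q.1).Prime ∧ absNorm q.1 ∉ S then ((absNorm q.1 : ℕ) : ℝ) ^ (-s) else 0

open Classical in
/-- the rest -/
noncomputable def A_badTerm (S : Finset ℕ) (s : ℝ) (q : {q : Ideal (𝓞 K) // q.IsPrime ∧ q ≠ ⊥}) :
    ℝ :=
  if (absNorm q.1).Prime ∧ absNorm q.1 ∉ S then 0 else ((absNorm q.1 : ℕ) : ℝ) ^ (-s)

lemma A_good_add_bad (S : Finset ℕ) (s : ℝ) (q : {q : Ideal (𝓞 K) // q.IsPrime ∧ q ≠ ⊥}) :
    A_goodTerm K S s q + A_badTerm K S s q = ((absNorm q.1 : ℕ) : ℝ) ^ (-s) := by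
  unfold A_goodTerm A_badTerm
  split_ifs <;> simp

lemma A_good_nonneg (S : Finset ℕ) (s : ℝ) (q : {q : Ideal (𝓞 K) // q.IsPrime ∧ q ≠ ⊥}) :
    0 ≤ A_goodTerm K S s q := by
  unfold A_goodTerm
  split_ifs
  · exact Real.rpow_nonneg (Nat.cast_nonneg _) _
  · exact le_rfl

lemma A_bad_nonneg (S : Finset ℕ) (s : ℝ) (q : {q : Ideal (𝓞 K) // q.IsPrime ∧ q ≠ ⊥}) :
    0 ≤ A_badTerm K S s q := by
  unfold A_badTerm
  split_ifs
  · exact le_rfl
  · exact Real.rpow_nonneg (Nat.cast_nonneg _) _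

lemma A_summable_good (S : Finset ℕ) {s : ℝ} (hs : 1 < s) : Summable (A_goodTerm K S s) := by
  refine Summable.of_nonneg_of_le (A_good_nonneg K S s) (fun q => ?_) (ER_summable_primeSum K hs)
  rw [← A_good_add_bad K S s q]
  exact le_add_of_nonneg_right (A_bad_nonneg K S s q)

lemma A_summable_bad (S : Finset ℕ) {s : ℝ} (hs : 1 < s) : Summable (A_badTerm K S s) := by
  refine Summable.of_nonneg_of_le (A_bad_nonneg K S s) (fun q => ?_) (ER_summable_primeSum K hs)
  rw [← A_good_add_bad K S s q]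
  exact le_add_of_nonneg_left (A_good_nonneg K S s q)

/-- the fibre of the norm map over a prime number -/
noncomputable def A_fibreEquiv (n : ℕ) (hn : n ≠ 0) :
    ↥((fun q : {q : Ideal (𝓞 K) // q.IsPrime ∧ q ≠ ⊥} => absNorm q.1) ⁻¹' {n}) ≃
      {Q : Ideal (𝓞 K) // Q.IsPrime ∧ Ideal.absNorm Q = n} where
  toFun b := ⟨b.1.1, b.1.2.1, b.2⟩
  invFun Q := ⟨⟨Q.1, Q.2.1, by
    intro h
    have h2 := Q.2.2
    rw [h, absNorm_bot] at h2
    exact hn h2.symm⟩, Q.2.2⟩
  left_inv _ := rfl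
  right_inv _ := rfl

open Classical in
/-- fibrewise summation of the good part -/
theorem A_hasSum_good (S : Finset ℕ) {s : ℝ} (hs : 1 < s) :
    HasSum (fun n : ℕ => (if n.Prime ∧ n ∉ S then (degOneCount K n : ℝ) else 0) * (n : ℝ) ^ (-s))
      (∑' q, A_goodTerm K S s q) := by
  have h := (A_summable_good K S hs).hasSum.tsum_fiberwise
    (fun q : {q : Ideal (𝓞 K) // q.IsPrime ∧ q ≠ ⊥} => absNorm q.1)
  have hfun : (fun n : ℕ =>
      (if n.Prime ∧ n ∉ S then (degOneCount K n : ℝ) else 0) * (n : ℝ) ^ (-s)) =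
      fun n : ℕ => ∑' b : ↥((fun q : {q : Ideal (𝓞 K) // q.IsPrime ∧ q ≠ ⊥} =>
        absNorm q.1) ⁻¹' {n}), A_goodTerm K S s b.1 := by
    funext n
    have hb : ∀ b : ↥((fun q : {q : Ideal (𝓞 K) // q.IsPrime ∧ q ≠ ⊥} =>
        absNorm q.1) ⁻¹' {n}), A_goodTerm K S s b.1 =
        if n.Prime ∧ n ∉ S then (n : ℝ) ^ (-s) else 0 := by
      intro b
      have hbn : absNorm b.1.1 = n := b.2
      unfold A_goodTerm
      rw [hbn]
    rw [tsum_congr hb, tsum_const]
    by_cases hn : n.Prime ∧ n ∉ S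
    · rw [if_pos hn, if_pos hn, Nat.card_congr (A_fibreEquiv K n hn.1.ne_zero), nsmul_eq_mul]
      rfl
    · rw [if_neg hn, if_neg hn]
      simp
  rw [hfun]
  exact h

open Classical in
/-- the bad part is bounded uniformly in `s > 1` -/
theorem A_bad_le (S : Finset ℕ) {s : ℝ} (hs : 1 < s) :
    ∑' q, A_badTerm K S s q ≤ (Module.finrank ℚ K : ℕ) *
      ∑' n : ℕ, ((if n ∈ S then (1 : ℝ) else 0) + (n : ℝ) ^ (-(2 : ℝ))) := by
  have hsum2 : Summable (fun n : ℕ => (n : ℝ) ^ (-(2 : ℝ))) :=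
    Real.summable_nat_rpow.mpr (by norm_num)
  have hsum1 : Summable (fun n : ℕ => if n ∈ S then (1 : ℝ) else 0) := by
    refine summable_of_ne_finset_zero (s := S) fun n hn => ?_
    rw [if_neg hn]
  have h01 : ∀ n : ℕ, (0 : ℝ) ≤ if n ∈ S then (1 : ℝ) else 0 := by
    intro n; split_ifs <;> norm_num
  refine (GL3_tsum_le_of_fiber (fun q : {q : Ideal (𝓞 K) // q.IsPrime ∧ q ≠ ⊥} =>
    (absNorm q.1).minFac) _ _ (Module.finrank ℚ K)
    (A_bad_nonneg K S s) (fun n => ?_) (hsum1.add hsum2)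
    (fun q => ?_) (fun F n hF => ?_)).2
  · exact add_nonneg (h01 n) (Real.rpow_nonneg (Nat.cast_nonneg _) _)
  · -- pointwise bound
    obtain ⟨hr, hl⟩ := GL3_minFac K q.1 q.2.1 q.2.2
    set r := (absNorm q.1).minFac with hrdef
    have := q.2.1
    have h1 := GL3_absNorm_eq K q.1 r
    have hf := GL3_inertiaDeg_pos K q.1
    have hr1 : (1 : ℝ) ≤ (r : ℝ) := by exact_mod_cast hr.one_le
    show A_badTerm K S s q ≤ (if r ∈ S then (1 : ℝ) else 0) + (r : ℝ) ^ (-(2 : ℝ))
    by_cases hgood : (absNorm q.1).Prime ∧ absNorm q.1 ∉ S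
    · rw [A_badTerm, if_pos hgood]
      exact add_nonneg (h01 r) (Real.rpow_nonneg (Nat.cast_nonneg _) _)
    rw [A_badTerm, if_neg hgood]
    rcases Nat.lt_or_ge 1 (q.1.inertiaDeg ℤ) with hf2 | hf1
    · -- degree at least two
      have h2 : ((absNorm q.1 : ℕ) : ℝ) ^ (-s) ≤ (r : ℝ) ^ (-(2 : ℝ)) := by
        rw [h1]
        push_cast
        rw [← Real.rpow_natCast, ← Real.rpow_mul (Nat.cast_nonneg _)]
        refine Real.rpow_le_rpow_of_exponent_le hr1 ?_
        have : (2 : ℝ) ≤ (q.1.inertiaDeg ℤ : ℝ) := by exact_mod_cast hf2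
        nlinarith
      exact h2.trans (le_add_of_nonneg_left (h01 r))
    · have hf' : q.1.inertiaDeg ℤ = 1 := le_antisymm hf1 hf
      rw [hf', pow_one] at h1
      have hrS : r ∈ S := by
        by_contra hrS
        exact hgood ⟨h1 ▸ hr, h1 ▸ hrS⟩
      rw [if_pos hrS, h1]
      have h3 : (r : ℝ) ^ (-s) ≤ 1 := Real.rpow_le_one_of_one_le_of_nonpos hr1 (by linarith)
      exact h3.trans (le_add_of_nonneg_right (Real.rpow_nonneg (Nat.cast_nonneg _) _))
  · -- cardinality of fibres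
    rcases F.eq_empty_or_nonempty with rfl | ⟨q0, hq0⟩
    · simp
    have hn : n.Prime := by
      rw [← hF q0 hq0]; exact (GL3_minFac K q0.1 q0.2.1 q0.2.2).1
    have : Fact n.Prime := ⟨hn⟩
    calc F.card = (F.image Subtype.val).card :=
          (Finset.card_image_of_injective _ Subtype.val_injective).symm
      _ ≤ ((span {(n : ℤ)}).primesOver (𝓞 K)).toFinset.card := by
          refine Finset.card_le_card fun Q hQ => ?_
          obtain ⟨q, hq, rfl⟩ := Finset.mem_image.mp hQ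
          rw [Set.mem_toFinset]
          refine ⟨q.2.1, ?_⟩
          have := (GL3_minFac K q.1 q.2.1 q.2.2).2
          rwa [hF q hq] at this
      _ = Fintype.card ((span {(n : ℤ)}).primesOver (𝓞 K)) := Set.toFinset_card _
      _ ≤ Module.finrank ℚ K := GL3_card_primesOver_le K n

end

theorem stmt_A : Stmt_A := by
  classical
  intro K _ _ S
  refine ⟨fun s hs => (A_hasSum_good K S hs).summable, ?_⟩
  obtain ⟨B, η, hη, hB⟩ := ER_primeSum_log_bound K
  refine ⟨B + (Module.finrank ℚ K : ℕ) *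
      ∑' n : ℕ, ((if n ∈ S then (1 : ℝ) else 0) + (n : ℝ) ^ (-(2 : ℝ))), η, hη, fun s hs hs' => ?_⟩
  rw [(A_hasSum_good K S hs).tsum_eq, one_mul]
  have h1 := abs_le.mp (hB s hs hs')
  have h2 : primeSum K s = ∑' q, A_goodTerm K S s q + ∑' q, A_badTerm K S s q := by
    rw [← (A_summable_good K S hs).tsum_add (A_summable_bad K S hs)]
    exact tsum_congr fun q => (A_good_add_bad K S s q).symm
  have h3 := A_bad_le K S hs
  have h4 : 0 ≤ ∑' q, A_badTerm K S s q := tsum_nonneg (A_bad_nonneg K S s)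
  rw [abs_le]
  constructor <;> linarith [h1.1, h1.2]

end Fermat.Agent.FD
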