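/-
FD package B, assembly (helper4): `Stmt_B` from `Stmt_B1`, `Stmt_B2`, `Stmt_B3`.
-/
import Fermat.Agent.FD.Interface

set_option autoImplicit false

namespace Fermat.Agent.FD

open NumberField

theorem B_liesOver {L : Type} [Field L] [NumberField L] {ℓ : ℕ} (hℓ : ℓ.Prime) (P : Ideal (𝓞 L))
    (hP : P.IsPrime) (hℓP : (ℓ : 𝓞 L) ∈ P) : P.LiesOver (Ideal.span {(ℓ : ℤ)}) := by
  have h1 : Ideal.span {(ℓ : ℤ)} ≤ P.under ℤ := by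
    rw [Ideal.span_singleton_le_iff_mem, Ideal.mem_comap]
    simpa using hℓP
  have hmax : (Ideal.span {(ℓ : ℤ)}).IsMaximal :=
    (Ideal.span_singleton_prime (by exact_mod_cast hℓ.ne_zero)).2
      (Nat.prime_iff_prime_int.1 hℓ) |>.isMaximal (by simpa using hℓ.ne_zero)
  exact ⟨hmax.eq_of_le (Ideal.IsPrime.under ℤ P).ne_top h1⟩

theorem B_finite {L : Type} [Field L] [NumberField L] {ℓ : ℕ} (hℓ : ℓ.Prime) :
    Finite {P : Ideal (𝓞 L) // P.IsPrime ∧ (ℓ : 𝓞 L) ∈ P} := by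
  have h1 : ((Ideal.span {(ℓ : ℤ)}).primesOver (𝓞 L)).Finite :=
    Algebra.QuasiFinite.finite_primesOver _
  exact Set.finite_coe_iff.mpr (h1.subset fun P hP => ⟨hP.1, B_liesOver hℓ P hP.1 hP.2⟩)

theorem stmt_B_of (h1 : Stmt_B1) (h2 : Stmt_B2) (h3 : Stmt_B3) : Stmt_B := by
  classical
  intro L _ _ _
  refine ⟨(discr L).natAbs.divisors, fun ℓ => (Ideal.span {(ℓ : ℤ)}).inertiaDegIn (𝓞 L),
    fun ℓ hℓ hℓS => ?_⟩
  have hd : ¬ (ℓ : ℤ) ∣ discr L := by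
    intro h
    exact hℓS (Nat.mem_divisors.mpr ⟨Int.natCast_dvd.mp h, by simpa using discr_ne_zero L⟩)
  refine ⟨B_finite hℓ, h1 L ℓ hℓ hd, fun H => ?_⟩
  set K' := IntermediateField.fixedField H with hK'
  -- the fibration
  have hmem : ∀ (Q : Ideal (𝓞 K')) (P : Ideal (𝓞 L)), Ideal.absNorm Q = ℓ → P.under (𝓞 K') = Q →
      (ℓ : 𝓞 L) ∈ P := by
    intro Q P hQ hPQ
    have h4 : ((Ideal.absNorm Q : ℕ) : 𝓞 K') ∈ Q := Ideal.absNorm_mem Q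
    rw [hQ, ← hPQ, Ideal.mem_comap] at h4
    simpa using h4
  let π : FrobPrimes L ℓ (H : Set (L ≃ₐ[ℚ] L)) →
      {Q : Ideal (𝓞 K') // Q.IsPrime ∧ Ideal.absNorm Q = ℓ} :=
    fun P => ⟨P.1.under (𝓞 K'), by have := P.2.1; exact Ideal.IsPrime.under _ P.1,
        (h3 L ℓ hℓ H P.1 P.2.1 P.2.2.1).mp P.2.2.2⟩
  let e : ∀ Q : {Q : Ideal (𝓞 K') // Q.IsPrime ∧ Ideal.absNorm Q = ℓ},
      {x : FrobPrimes L ℓ (H : Set (L ≃ₐ[ℚ] L)) // π x = Q} ≃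
        {P : Ideal (𝓞 L) // P.IsPrime ∧ P.under (𝓞 K') = Q.1} := fun Q =>
    { toFun := fun x => ⟨x.1.1, x.1.2.1, congrArg Subtype.val x.2⟩
      invFun := fun P => ⟨⟨P.1, P.2.1, hmem Q.1 P.1 Q.2.2 P.2.2,
        (h3 L ℓ hℓ H P.1 P.2.1 (hmem Q.1 P.1 Q.2.2 P.2.2)).mpr (by rw [P.2.2]; exact Q.2.2)⟩,
        Subtype.ext P.2.2⟩
      left_inv := fun x => rfl
      right_inv := fun P => rfl }
  have hfinQ : Finite {Q : Ideal (𝓞 K') // Q.IsPrime ∧ Ideal.absNorm Q = ℓ} := by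
    have h5 : {Q : Ideal (𝓞 K') | Ideal.absNorm Q = ℓ}.Finite := Ideal.finite_setOfPred_absNorm_eq ℓ
    exact Set.finite_coe_iff.mpr (h5.subset fun Q hQ => hQ.2)
  have : Fintype {Q : Ideal (𝓞 K') // Q.IsPrime ∧ Ideal.absNorm Q = ℓ} := Fintype.ofFinite _
  have hH0 : Nat.card H ≠ 0 := Nat.card_pos.ne'
  have hfib : ∀ Q : {Q : Ideal (𝓞 K') // Q.IsPrime ∧ Ideal.absNorm Q = ℓ},
      (Ideal.span {(ℓ : ℤ)}).inertiaDegIn (𝓞 L) *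
        Nat.card {P : Ideal (𝓞 L) // P.IsPrime ∧ P.under (𝓞 K') = Q.1} = Nat.card H :=
    fun Q => h2 L ℓ hℓ hd H Q.1 Q.2.1 Q.2.2
  have hfinfib : ∀ Q : {Q : Ideal (𝓞 K') // Q.IsPrime ∧ Ideal.absNorm Q = ℓ},
      Finite {P : Ideal (𝓞 L) // P.IsPrime ∧ P.under (𝓞 K') = Q.1} := by
    intro Q
    refine Nat.finite_of_card_ne_zero fun h0 => hH0 ?_
    rw [← hfib Q, h0, mul_zero]
  have hfinfib' : ∀ Q, Finite {x : FrobPrimes L ℓ (H : Set (L ≃ₐ[ℚ] L)) // π x = Q} :=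
    fun Q => Finite.of_equiv _ (e Q).symm
  rw [← Nat.card_congr (Equiv.sigmaFiberEquiv π), Nat.card_sigma, Finset.mul_sum,
    Finset.sum_congr rfl (fun Q _ => by rw [Nat.card_congr (e Q), hfib Q]),
    Finset.sum_const, Finset.card_univ, smul_eq_mul, ← Nat.card_eq_fintype_card, degOneCount,
    mul_comm]

end Fermat.Agent.FD
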