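/-
FD package B1 (helper4, hedge copy): uniqueness of Frobenius elements at unramified primes.
-/
import Fermat.Agent.FD.Interface

set_option autoImplicit false

namespace Fermat.Agent.FD

open NumberField Ideal

theorem B1x_stmt : Stmt_B1 := by
  intro L _ _ _ ℓ hℓ hd P hP hℓP h h' hh hh'
  have hp : (span {(ℓ : ℤ)}).IsPrime :=
    (span_singleton_prime (by exact_mod_cast hℓ.ne_zero)).2 (Nat.prime_iff_prime_int.1 hℓ)
  have hlo : P.LiesOver (span {(ℓ : ℤ)}) := by
    have h1 : span {(ℓ : ℤ)} ≤ P.under ℤ := by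
      rw [span_singleton_le_iff_mem, mem_comap]
      simpa using hℓP
    have hmax : (span {(ℓ : ℤ)}).IsMaximal := hp.isMaximal (by simpa using hℓ.ne_zero)
    exact ⟨hmax.eq_of_le (IsPrime.under ℤ P).ne_top h1⟩
  have he : P.ramificationIdx ℤ = 1 := by
    have := (not_dvd_discr_iff_forall_mem L (𝓞 L) (Nat.prime_iff_prime_int.mp hℓ)).mp hd P hP
      (by simpa using hℓP)
    exact ramificationIdx_eq_one_of_isUnramifiedAt
  have hcard : Nat.card (P.inertia (L ≃ₐ[ℚ] L)) = 1 := by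
    rw [card_inertia_eq_ramificationIdxIn (span {(ℓ : ℤ)}) P,
      ramificationIdxIn_eq_ramificationIdx (span {(ℓ : ℤ)}) P (L ≃ₐ[ℚ] L), he]
  have h1 : h * h'⁻¹ ∈ P.inertia (L ≃ₐ[ℚ] L) := by
    intro x
    have h2 := sub_mem (hh (h'⁻¹ • x)) (hh' (h'⁻¹ • x))
    simpa [mul_smul] using h2
  have h2 : h * h'⁻¹ = 1 := by
    have := (Subgroup.card_eq_one.mp hcard)
    rw [this] at h1
    exact Subgroup.mem_bot.mp h1
  exact mul_inv_eq_one.mp h2

end Fermat.Agent.FD
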