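import Fermat.Agent.FD.Interface
import Fermat.Agent.S14.GL3

/-!
# FD-B2 : the number of primes of `L` above a degree one prime of `L^H`
-/

set_option autoImplicit false

namespace Fermat.Agent.FD

open NumberField Ideal

theorem stmt_B2 : Stmt_B2 := by
  intro L _ _ _ ℓ hℓ hd H Q hQ hN
  have hfund := Ideal.ncard_primesOver_mul_ramificationIdxIn_mul_inertiaDegIn Q (𝓞 L)
    (L ≃ₐ[IntermediateField.fixedField H] L)
  obtain ⟨⟨P, hP, hPQ⟩⟩ := (inferInstance : Nonempty (primesOver Q (𝓞 L)))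
  obtain ⟨hl, hf⟩ := Fermat.Agent.S14.GL3_of_absNorm_prime _ Q ℓ hℓ hN
  have hPl : P.LiesOver (span {(ℓ : ℤ)}) := LiesOver.trans P Q _
  -- `P` is unramified over `ℤ`
  have heP : P.ramificationIdx ℤ = 1 := by
    have := (not_dvd_discr_iff_forall_mem L (𝓞 L) (Nat.prime_iff_prime_int.mp hℓ)).mp hd P hP
      (by
        have : ((ℓ : ℤ) : 𝓞 L) = algebraMap ℤ (𝓞 L) (ℓ : ℤ) := by simp
        rw [this]
        exact (mem_of_liesOver P (span {(ℓ : ℤ)}) _).mp (mem_span_singleton_self _))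
    exact ramificationIdx_eq_one_of_isUnramifiedAt
  have he : P.ramificationIdx (𝓞 (IntermediateField.fixedField H)) = 1 := by
    have h1 := ramificationIdx_tower (R := ℤ) Q P
    rw [heP] at h1
    exact Nat.eq_one_of_mul_eq_one_left h1.symm
  have hfP : P.inertiaDeg (𝓞 (IntermediateField.fixedField H)) = P.inertiaDeg ℤ := by
    have h1 := inertiaDeg_tower (R := ℤ) Q P
    rw [hf, one_mul] at h1
    exact h1.symm
  rw [ramificationIdxIn_eq_ramificationIdx Q P (L ≃ₐ[IntermediateField.fixedField H] L), he,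
    one_mul, inertiaDegIn_eq_inertiaDeg Q P (L ≃ₐ[IntermediateField.fixedField H] L), hfP,
    ← inertiaDegIn_eq_inertiaDeg (span {(ℓ : ℤ)}) P (L ≃ₐ[ℚ] L)] at hfund
  have hcard : Nat.card (L ≃ₐ[IntermediateField.fixedField H] L) = Nat.card H := by
    rw [IsGalois.card_aut_eq_finrank, IntermediateField.finrank_fixedField_eq_card]
  have hset : Nat.card {P : Ideal (𝓞 L) // P.IsPrime ∧
      P.under (𝓞 (IntermediateField.fixedField H)) = Q} = (primesOver Q (𝓞 L)).ncard := by
    rw [← Nat.card_coe_set_eq]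
    refine Nat.card_congr (Equiv.subtypeEquivRight fun P' => ?_)
    constructor
    · rintro ⟨h1, h2⟩
      exact ⟨h1, ⟨h2.symm⟩⟩
    · rintro ⟨h1, h2⟩
      exact ⟨h1, h2.over.symm⟩
  rw [hset, mul_comm, hfund, hcard]

end Fermat.Agent.FD
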