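/-
FD-B3 (helper64): `P` has a Frobenius element in `H` iff the prime below `P` in the fixed field of
`H` has degree one.
-/
import Fermat.Agent.FD.Interface
import Fermat.Agent.S14.AuxPrime
import Fermat.Agent.S14.FrobAPI

set_option autoImplicit false

namespace Fermat.Agent.FD

open NumberField
open scoped Pointwise

theorem stmt_B3 : Stmt_B3 := by
  intro L _ _ _ ℓ hℓ H P hP hℓP
  have hP0 : P ≠ ⊥ := by
    rintro rfl
    have : (ℓ : 𝓞 L) = 0 := by simpa using hℓP
    exact hℓ.ne_zero (by exact_mod_cast this)
  have hQprime : (P.under (𝓞 (IntermediateField.fixedField H))).IsPrime := Ideal.IsPrime.under _ P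
  have hℓQ : (ℓ : 𝓞 (IntermediateField.fixedField H)) ∈ P.under (𝓞 (IntermediateField.fixedField H)) := by
    rw [Ideal.mem_comap]
    simpa using hℓP
  constructor
  · rintro ⟨h, hhH, hh⟩
    refine S14.KU.absNorm_eq_of_pow_eq hℓ _ hℓQ fun x => ?_
    rw [Ideal.mem_comap, map_sub, map_pow]
    have h1 := hh (algebraMap (𝓞 (IntermediateField.fixedField H)) (𝓞 L) x)
    have h2 : h • (algebraMap (𝓞 (IntermediateField.fixedField H)) (𝓞 L) x)
        = algebraMap (𝓞 (IntermediateField.fixedField H)) (𝓞 L) x := by
      apply RingOfIntegers.ext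
      have hx := (x : IntermediateField.fixedField H).2
      exact hx ⟨h, hhH⟩
    rwa [h2] at h1
  · intro hN
    obtain ⟨h', hh'⟩ := S14.frobExists (IntermediateField.fixedField H) L
      (P.under (𝓞 (IntermediateField.fixedField H))) P hP hP0 ⟨rfl⟩
    rw [hN] at hh'
    refine ⟨h'.restrictScalars ℚ, ?_, fun x => hh' x⟩
    have h3 : h'.restrictScalars ℚ ∈ (IntermediateField.fixedField H).fixingSubgroup := by
      rw [IntermediateField.mem_fixingSubgroup_iff]
      intro x hx
      exact h'.commutes ⟨x, hx⟩
    rwa [IntermediateField.fixingSubgroup_fixedField] at h3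

end Fermat.Agent.FD
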