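/-
FD package C, part 1 (helper4): calculus of `HasLogDens`.
-/
import Fermat.Agent.FD.Interface

set_option autoImplicit false

namespace Fermat.Agent.FD

theorem HasLogDens.zero : HasLogDens (fun _ => 0) 0 := by
  refine ⟨fun s _ => by simp [summable_zero], 0, 1, one_pos, fun s _ _ => by simp⟩

theorem HasLogDens.congr {c c' : ℕ → ℝ} {δ δ' : ℝ} (h : HasLogDens c δ) (hc : ∀ n, c n = c' n)
    (hδ : δ = δ') : HasLogDens c' δ' := by
  have : c = c' := funext hc
  rw [← this, ← hδ]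
  exact h

theorem HasLogDens.add {c c' : ℕ → ℝ} {δ δ' : ℝ} (h : HasLogDens c δ) (h' : HasLogDens c' δ') :
    HasLogDens (fun n => c n + c' n) (δ + δ') := by
  obtain ⟨hs, B, η, hη, hB⟩ := h
  obtain ⟨hs', B', η', hη', hB'⟩ := h'
  refine ⟨fun s hs1 => ?_, B + B', min η η', lt_min hη hη', fun s hs1 hs2 => ?_⟩
  · simpa [add_mul] using (hs s hs1).add (hs' s hs1)
  · have e : ∑' n : ℕ, (c n + c' n) * (n : ℝ) ^ (-s)
        = ∑' n : ℕ, c n * (n : ℝ) ^ (-s) + ∑' n : ℕ, c' n * (n : ℝ) ^ (-s) := by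
      rw [← (hs s hs1).tsum_add (hs' s hs1)]
      exact tsum_congr fun n => add_mul _ _ _
    have h1 := hB s hs1 (hs2.trans (by linarith [min_le_left η η']))
    have h2 := hB' s hs1 (hs2.trans (by linarith [min_le_right η η']))
    rw [e]
    rw [abs_le] at h1 h2 ⊢
    constructor <;> nlinarith [h1.1, h1.2, h2.1, h2.2]

theorem HasLogDens.const_mul {c : ℕ → ℝ} {δ : ℝ} (a : ℝ) (h : HasLogDens c δ) :
    HasLogDens (fun n => a * c n) (a * δ) := by
  obtain ⟨hs, B, η, hη, hB⟩ := h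
  refine ⟨fun s hs1 => ?_, |a| * B, η, hη, fun s hs1 hs2 => ?_⟩
  · simpa [mul_assoc] using (hs s hs1).mul_left a
  · have e : ∑' n : ℕ, (a * c n) * (n : ℝ) ^ (-s) = a * ∑' n : ℕ, c n * (n : ℝ) ^ (-s) := by
      rw [← tsum_mul_left]
      exact tsum_congr fun n => mul_assoc _ _ _
    rw [e, mul_assoc, ← mul_sub, abs_mul]
    exact mul_le_mul_of_nonneg_left (hB s hs1 hs2) (abs_nonneg a)

theorem HasLogDens.sub {c c' : ℕ → ℝ} {δ δ' : ℝ} (h : HasLogDens c δ) (h' : HasLogDens c' δ') :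
    HasLogDens (fun n => c n - c' n) (δ - δ') := by
  refine (h.add (h'.const_mul (-1))).congr (fun n => by ring) (by ring)

theorem HasLogDens.sum {ι : Type*} (t : Finset ι) (c : ι → ℕ → ℝ) (δ : ι → ℝ)
    (h : ∀ i ∈ t, HasLogDens (c i) (δ i)) :
    HasLogDens (fun n => ∑ i ∈ t, c i n) (∑ i ∈ t, δ i) := by
  classical
  induction t using Finset.induction_on with
  | empty => simpa using HasLogDens.zero
  | insert a t ha ih =>
    have h1 := (h a (Finset.mem_insert_self a t)).add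
      (ih fun i hi => h i (Finset.mem_insert_of_mem hi))
    refine h1.congr (fun n => ?_) ?_
    · rw [Finset.sum_insert ha]
    · rw [Finset.sum_insert ha]

theorem HasLogDens.exists_ne_zero {c : ℕ → ℝ} {δ : ℝ} (h : HasLogDens c δ) (hδ : 0 < δ) :
    ∃ n, c n ≠ 0 := by
  by_contra hcon
  push Not at hcon
  obtain ⟨-, B, η, hη, hB⟩ := h
  -- choose `s` with `δ * log (1/(s-1)) > B`
  set t : ℝ := min η (Real.exp (-((|B| + 1) / δ))) with ht
  have ht0 : 0 < t := lt_min hη (Real.exp_pos _)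
  have h1 := hB (1 + t) (by linarith) (by linarith [min_le_left η (Real.exp (-((|B| + 1) / δ)))])
  have h2 : ∑' n : ℕ, c n * (n : ℝ) ^ (-(1 + t)) = 0 := by
    simp [hcon]
  rw [h2, zero_sub, abs_neg, add_sub_cancel_left] at h1
  have h3 : (|B| + 1) / δ ≤ Real.log (1 / t) := by
    rw [one_div, Real.log_inv, le_neg]
    calc Real.log t ≤ Real.log (Real.exp (-((|B| + 1) / δ))) :=
          Real.log_le_log ht0 (min_le_right _ _)
      _ = -((|B| + 1) / δ) := Real.log_exp _
  have h4 : |B| + 1 ≤ δ * Real.log (1 / t) := by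
    rw [div_le_iff₀ hδ] at h3
    linarith
  have h5 := le_abs_self (δ * Real.log (1 / t))
  have h6 := le_abs_self B
  linarith

end Fermat.Agent.FD
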