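/-
FD package C, part 2 (helper4): Frobenius density at finite level from (A) and (B).
-/
import Fermat.Agent.FD.LogDens

set_option autoImplicit false

namespace Fermat.Agent.FD

open NumberField

section group

variable {G : Type*} [Group G]

/-- membership in the subgroup of order `d` of a finite cyclic group -/
theorem C_mem_zpowers_pow_iff (g : G) (hg : 0 < orderOf g) {d : ℕ} (hd : d ∣ orderOf g) (h : G) :
    h ∈ Subgroup.zpowers (g ^ (orderOf g / d)) ↔ h ∈ Subgroup.zpowers g ∧ orderOf h ∣ d := by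
  have hd0 : 0 < d := Nat.pos_of_dvd_of_pos hd hg
  obtain ⟨m, hm⟩ := hd
  have hm0 : 0 < m := by
    rcases Nat.eq_zero_or_pos m with h0 | h0
    · rw [h0, mul_zero] at hm; omega
    · exact h0
  have hdiv : orderOf g / d = m := by rw [hm]; exact Nat.mul_div_cancel_left m hd0
  rw [hdiv]
  constructor
  · rintro ⟨k, rfl⟩
    refine ⟨⟨m * k, ?_⟩, ?_⟩
    · simp only [zpow_mul, zpow_natCast]
    · rw [orderOf_dvd_iff_pow_eq_one]
      simp only
      rw [← zpow_natCast, ← zpow_mul, mul_comm, zpow_mul, zpow_natCast, ← pow_mul, mul_comm m d,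
        ← hm, pow_orderOf_eq_one, one_zpow]
  · rintro ⟨⟨k, rfl⟩, hk⟩
    simp only at hk
    rw [orderOf_dvd_iff_pow_eq_one, ← zpow_natCast, ← zpow_mul,
      ← orderOf_dvd_iff_zpow_eq_one, hm] at hk
    have h1 : (m : ℤ) ∣ k := by
      have h2 : ((d : ℤ) * m) ∣ d * k := by
        rw [mul_comm (d : ℤ) k]; exact_mod_cast hk
      exact (mul_dvd_mul_iff_left (by exact_mod_cast hd0.ne')).mp h2
    obtain ⟨j, rfl⟩ := h1
    exact ⟨j, by simp only [zpow_mul, zpow_natCast]⟩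

theorem C_card_zpowers_pow (g : G) (hg : 0 < orderOf g) {d : ℕ} (hd : d ∣ orderOf g) :
    Nat.card (Subgroup.zpowers (g ^ (orderOf g / d))) = d := by
  have hd0 : 0 < d := Nat.pos_of_dvd_of_pos hd hg
  rw [Nat.card_zpowers, orderOf_pow_of_dvd (Nat.div_pos (Nat.le_of_dvd hg hd) hd0).ne'
    (Nat.div_dvd_of_dvd hd), Nat.div_div_self hd hg.ne']

end group

section count

variable {L : Type} [Field L] [NumberField L]

/-- the set underlying `FrobPrimes` -/
def C_F (L : Type) [Field L] [NumberField L] (ℓ : ℕ) (T : Set (L ≃ₐ[ℚ] L)) : Set (Ideal (𝓞 L)) :=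
  {P | P.IsPrime ∧ (ℓ : 𝓞 L) ∈ P ∧ ∃ h ∈ T, IsFrobAt P ℓ h}

theorem C_card_eq_ncard (ℓ : ℕ) (T : Set (L ≃ₐ[ℚ] L)) :
    Nat.card (FrobPrimes L ℓ T) = (C_F L ℓ T).ncard :=
  Nat.card_coe_set_eq (C_F L ℓ T)

theorem C_F_finite (ℓ : ℕ) (hfin : Finite {P : Ideal (𝓞 L) // P.IsPrime ∧ (ℓ : 𝓞 L) ∈ P})
    (T : Set (L ≃ₐ[ℚ] L)) : (C_F L ℓ T).Finite := by
  have h1 : {P : Ideal (𝓞 L) | P.IsPrime ∧ (ℓ : 𝓞 L) ∈ P}.Finite := Set.finite_coe_iff.mp hfin
  exact h1.subset fun P hP => ⟨hP.1, hP.2.1⟩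

theorem C_card_biUnion (ℓ : ℕ) (hfin : Finite {P : Ideal (𝓞 L) // P.IsPrime ∧ (ℓ : 𝓞 L) ∈ P})
    (huniq : ∀ P : Ideal (𝓞 L), P.IsPrime → (ℓ : 𝓞 L) ∈ P →
      ∀ h h' : L ≃ₐ[ℚ] L, IsFrobAt P ℓ h → IsFrobAt P ℓ h' → h = h')
    {ι : Type*} (t : Finset ι) (T : ι → Set (L ≃ₐ[ℚ] L))
    (hdisj : ∀ i ∈ t, ∀ j ∈ t, i ≠ j → Disjoint (T i) (T j)) :
    Nat.card (FrobPrimes L ℓ (⋃ i ∈ t, T i)) = ∑ i ∈ t, Nat.card (FrobPrimes L ℓ (T i)) := by
  classical
  simp only [C_card_eq_ncard]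
  induction t using Finset.induction_on with
  | empty =>
    have : C_F L ℓ (⋃ i ∈ (∅ : Finset ι), T i) = ∅ := by
      ext P
      simp [C_F]
    rw [this]
    simp
  | insert a t ha ih =>
    have hU : C_F L ℓ (⋃ i ∈ insert a t, T i) = C_F L ℓ (T a) ∪ C_F L ℓ (⋃ i ∈ t, T i) := by
      ext P
      simp only [C_F, Finset.mem_insert, Set.iUnion_iUnion_eq_or_left, Set.mem_union,
        Set.mem_ofPred_eq]
      constructor
      · rintro ⟨h1, h2, h, hh | hh, hf⟩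
        · exact Or.inl ⟨h1, h2, h, hh, hf⟩
        · exact Or.inr ⟨h1, h2, h, hh, hf⟩
      · rintro (⟨h1, h2, h, hh, hf⟩ | ⟨h1, h2, h, hh, hf⟩)
        · exact ⟨h1, h2, h, Or.inl hh, hf⟩
        · exact ⟨h1, h2, h, Or.inr hh, hf⟩
    have hD : Disjoint (C_F L ℓ (T a)) (C_F L ℓ (⋃ i ∈ t, T i)) := by
      rw [Set.disjoint_left]
      rintro P ⟨h1, h2, h, hh, hf⟩ ⟨-, -, h', hh', hf'⟩
      have e := huniq P h1 h2 h h' hf hf'
      subst e
      simp only [Set.mem_iUnion, exists_prop] at hh'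
      obtain ⟨i, hi, hhi⟩ := hh'
      have hne : a ≠ i := fun e => ha (e ▸ hi)
      exact Set.disjoint_left.mp (hdisj a (Finset.mem_insert_self a t) i
        (Finset.mem_insert_of_mem hi) hne) hh hhi
    rw [hU, Set.ncard_union_eq hD (C_F_finite ℓ hfin _) (C_F_finite ℓ hfin _),
      Finset.sum_insert ha, ih fun i hi j hj => hdisj i (Finset.mem_insert_of_mem hi) j
        (Finset.mem_insert_of_mem hj)]

end count

open Classical in
theorem fdfin_of (hA : Stmt_A) (hB : Stmt_B) : Stmt_FDfin := by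
  intro L _ _ _ g S
  obtain ⟨S₀, f, hf⟩ := hB L
  set S' : Finset ℕ := S ∪ S₀ with hS'
  set n := orderOf g with hn
  have hn0 : 0 < n := orderOf_pos g
  -- the elements of exact order `d` in `⟨g⟩`
  set T : ℕ → Set (L ≃ₐ[ℚ] L) := fun d => {h | h ∈ Subgroup.zpowers g ∧ orderOf h = d} with hT
  set c : ℕ → ℕ → ℝ := fun d ℓ =>
    if ℓ.Prime ∧ ℓ ∉ S' then ((f ℓ * Nat.card (FrobPrimes L ℓ (T d)) : ℕ) : ℝ) else 0 with hc
  have hTdisj : ∀ i j : ℕ, i ≠ j → Disjoint (T i) (T j) := by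
    intro i j hij
    rw [Set.disjoint_left]
    rintro h ⟨-, h1⟩ ⟨-, h2⟩
    exact hij (h1.symm.trans h2)
  -- the sum over the divisors of `d`
  have hsum : ∀ d : ℕ, d ∣ n → HasLogDens (fun ℓ => ∑ d' ∈ d.divisors, c d' ℓ) d := by
    intro d hd
    have hd0 : 0 < d := Nat.pos_of_dvd_of_pos hd hn0
    set H : Subgroup (L ≃ₐ[ℚ] L) := Subgroup.zpowers (g ^ (n / d)) with hH
    have hcard : Nat.card H = d := C_card_zpowers_pow g hn0 hd
    have hset : (H : Set (L ≃ₐ[ℚ] L)) = ⋃ d' ∈ d.divisors, T d' := by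
      ext h
      simp only [SetLike.mem_coe, Set.mem_iUnion, exists_prop, hT, Set.mem_ofPred_eq,
        Nat.mem_divisors]
      rw [hH, C_mem_zpowers_pow_iff g hn0 hd h]
      constructor
      · rintro ⟨h1, h2⟩
        exact ⟨orderOf h, ⟨h2, hd0.ne'⟩, h1, rfl⟩
      · rintro ⟨d', ⟨h2, -⟩, h1, rfl⟩
        exact ⟨h1, h2⟩
    refine ((hA (IntermediateField.fixedField H) S').const_mul (d : ℝ)).congr (fun ℓ => ?_)
      (mul_one _)
    by_cases hℓ : ℓ.Prime ∧ ℓ ∉ S'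
    · obtain ⟨hfin, huniq, hcount⟩ := hf ℓ hℓ.1 (fun h => hℓ.2 (Finset.mem_union_right _ h))
      have h1 := hcount H
      rw [hcard, hset, C_card_biUnion ℓ hfin huniq d.divisors T
        (fun i _ j _ hij => hTdisj i j hij), Finset.mul_sum] at h1
      simp only [hc, if_pos hℓ]
      rw [← Nat.cast_sum, ← h1]
      push_cast
      ring
    · simp only [hc, if_neg hℓ, mul_zero, Finset.sum_const_zero]
  -- strong induction
  have hind : ∀ d : ℕ, d ∣ n → HasLogDens (c d) (Nat.totient d) := by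
    intro d
    induction d using Nat.strong_induction_on with
    | _ d ih =>
      intro hd
      have hd0 : 0 < d := Nat.pos_of_dvd_of_pos hd hn0
      have h1 := hsum d hd
      have h2 : HasLogDens (fun ℓ => ∑ d' ∈ d.properDivisors, c d' ℓ)
          (∑ d' ∈ d.properDivisors, (Nat.totient d' : ℝ)) :=
        HasLogDens.sum _ _ _ fun d' hd' =>
          ih d' (Nat.mem_properDivisors.mp hd').2 ((Nat.mem_properDivisors.mp hd').1.trans hd)
      refine (h1.sub h2).congr (fun ℓ => ?_) ?_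
      · rw [← Nat.cons_self_properDivisors hd0.ne', Finset.sum_cons]
        ring
      · have h3 : ((∑ d' ∈ d.divisors, Nat.totient d' : ℕ) : ℝ) = d := by
          rw [Nat.sum_totient]
        rw [← Nat.cons_self_properDivisors hd0.ne', Finset.sum_cons] at h3
        push_cast at h3
        linarith
  obtain ⟨ℓ, hℓ⟩ := (hind n dvd_rfl).exists_ne_zero (by exact_mod_cast Nat.totient_pos.mpr hn0)
  have hgood : ℓ.Prime ∧ ℓ ∉ S' := by
    by_contra h
    exact hℓ (by simp only [hc, if_neg h])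
  simp only [hc, if_pos hgood] at hℓ
  have hne : Nat.card (FrobPrimes L ℓ (T n)) ≠ 0 := by
    intro h
    apply hℓ
    rw [h, mul_zero, Nat.cast_zero]
  obtain ⟨hfin, huniq, -⟩ := hf ℓ hgood.1 (fun h => hgood.2 (Finset.mem_union_right _ h))
  have hnonempty : Nonempty (FrobPrimes L ℓ (T n)) := by
    by_contra h
    rw [not_nonempty_iff] at h
    exact hne Nat.card_of_isEmpty
  obtain ⟨P, hP, hℓP, h, ⟨hh1, hh2⟩, hfrob⟩ := hnonempty
  refine ⟨ℓ, hgood.1, fun h => hgood.2 (Finset.mem_union_left _ h), P, hP, hℓP, h, hfrob,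
    fun h' hh' => huniq P hP hℓP h' h hh' hfrob, ?_⟩
  refine Subgroup.eq_of_le_of_card_ge ((Subgroup.zpowers_le).mpr hh1) ?_
  rw [Nat.card_zpowers, Nat.card_zpowers, hh2]

end Fermat.Agent.FD
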