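import Fermat.Agent.FD.Interface
import Fermat.Agent.S54.Frob95

/-!
# FD, package D : valuation subring of `ℚ̄` and Frobenius lift above a prime of `𝓞 L`
-/

set_option autoImplicit false

namespace Fermat.Agent.FD

open Fermat.Agent.S54.Frob95
open scoped Pointwise

set_option synthInstance.maxHeartbeats 400000 in
/-- A Frobenius element at a *given* valuation subring `V` of `ℚ̄` over `l`. -/
theorem D_exists_frobenius_at (V : ValuationSubring (AlgebraicClosure ℚ)) {l : ℕ} (hl : l.Prime)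
    (hlV : (l : AlgebraicClosure ℚ) ∈ V.nonunits) :
    ∃ σ : AlgebraicClosure ℚ ≃ₐ[ℚ] AlgebraicClosure ℚ,
      V.IsFrobeniusAt σ l ∧ ∀ b : Zbar, σ • b - b ^ l ∈ primeOf V := by
  obtain ⟨σ, hσQ, hσ⟩ := exists_stabilizer_frobenius V hl hlV
  have hσinv : σ⁻¹ • primeOf V = primeOf V := by
    conv_lhs => rw [← hσQ]
    rw [inv_smul_smul]
  have hdec : σ ∈ V.decompositionSubgroup ℚ := by
    rw [MulAction.mem_stabilizer_iff]
    apply le_antisymm
    · rw [ValuationSubring.pointwise_smul_subset_iff]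
      intro x hx
      rw [ValuationSubring.mem_inv_pointwise_smul_iff]
      exact map_mem_of_stabilizer V hl hlV σ hσQ x hx
    · intro x hx
      rw [ValuationSubring.mem_pointwise_smul_iff_inv_smul_mem]
      exact map_mem_of_stabilizer V hl hlV σ⁻¹ hσinv x hx
  refine ⟨σ, ⟨hdec, fun xbar => ?_⟩, hσ⟩
  obtain ⟨x, rfl⟩ := IsLocalRing.residue_surjective xbar
  rw [← IsLocalRing.ResidueField.residue_smul, ← map_pow, ← sub_eq_zero, ← map_sub,
    IsLocalRing.residue_eq_zero_iff, ← ValuationSubring.coe_mem_nonunits_iff]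
  change σ (x : AlgebraicClosure ℚ) - (x : AlgebraicClosure ℚ) ^ l ∈ V.nonunits
  obtain ⟨s, hs, hsu, hsx⟩ := exists_unit_mul_isIntegral V hl hlV x x.2
  have hs1 : V.valuation s = 1 := val_eq_one V (mem_of_isIntegral V hs) hsu
  have h1 := (mem_primeOf V _).mp (hσ ⟨s, hs⟩)
  have h2 := (mem_primeOf V _).mp (hσ ⟨s * x, hsx⟩)
  have h1' : σ s - s ^ l ∈ V.nonunits := h1
  have h2' : σ (s * x) - (s * x) ^ l ∈ V.nonunits := h2
  have hσs1 : V.valuation (σ s) = 1 := by
    refine val_eq_one V (mem_of_isIntegral V (map_isIntegral_int σ hs)) ?_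
    have h3 : σ s = s ^ l + (σ s - s ^ l) := by ring
    rw [h3]
    refine not_mem_nonunits_add V ?_ h1'
    rw [ValuationSubring.mem_nonunits_iff, map_pow, hs1, one_pow]
    exact lt_irrefl _
  have hkey : (σ (x : AlgebraicClosure ℚ) - (x : AlgebraicClosure ℚ) ^ l) * σ s =
      (σ (s * x) - (s * x) ^ l) + (-(σ s - s ^ l)) * (x : AlgebraicClosure ℚ) ^ l := by
    rw [map_mul]
    ring
  have h4 : (σ (x : AlgebraicClosure ℚ) - (x : AlgebraicClosure ℚ) ^ l) * σ s ∈ V.nonunits := by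
    rw [hkey]
    exact add_mem h2' (mul_mem_nonunits V (neg_mem h1') (pow_mem x.2 l))
  rw [ValuationSubring.mem_nonunits_iff] at h4 ⊢
  rwa [map_mul, hσs1, mul_one] at h4

open NumberField

section

variable (L : IntermediateField ℚ (AlgebraicClosure ℚ))

/-- The inclusion `𝓞 L → ℚ̄`. -/
noncomputable def D_iota : 𝓞 L →+* AlgebraicClosure ℚ :=
  (algebraMap L (AlgebraicClosure ℚ)).comp (algebraMap (𝓞 L) L)

theorem D_iota_injective : Function.Injective (D_iota L) :=
  (algebraMap L (AlgebraicClosure ℚ)).injective.comp RingOfIntegers.coe_injective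

theorem D_iota_isIntegral (x : 𝓞 L) : IsIntegral ℤ (D_iota L x) :=
  map_isIntegral_int (algebraMap L (AlgebraicClosure ℚ)) (RingOfIntegers.isIntegral_coe x)

/-- The inclusion `𝓞 L → ℤ̄`. -/
noncomputable def D_j : 𝓞 L →+* Zbar :=
  (D_iota L).codRestrict Zbar (D_iota_isIntegral L)

theorem D_coe_j (x : 𝓞 L) : ((D_j L x : Zbar) : AlgebraicClosure ℚ) = D_iota L x := rfl

/-- A valuation subring of `ℚ̄` above a proper ideal `P` of `𝓞 L`. -/
theorem D_exists_valuationSubring (P : Ideal (𝓞 L)) (hP : P ≠ ⊤) :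
    ∃ V : ValuationSubring (AlgebraicClosure ℚ), ∀ x ∈ P, D_iota L x ∈ V.nonunits := by
  let I : Ideal (D_iota L).range := P.map (D_iota L).rangeRestrict
  have hI : I ≠ ⊤ := by
    intro h
    have h1 : (1 : (D_iota L).range) ∈ I := by rw [h]; trivial
    obtain ⟨x, hx, hx1⟩ :=
      (Ideal.mem_map_iff_of_surjective _ (D_iota L).rangeRestrict_surjective).mp h1
    have hx2 : D_iota L x = D_iota L 1 := by
      rw [map_one]
      exact congrArg Subtype.val hx1
    rw [D_iota_injective L hx2] at hx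
    exact hP ((Ideal.eq_top_iff_one P).mpr hx)
  obtain ⟨V, -, hV⟩ := Ideal.image_subset_nonunits_valuationSubring I hI
  exact ⟨V, fun x hx => hV ⟨(D_iota L).rangeRestrict x, Ideal.mem_map_of_mem _ hx, rfl⟩⟩

end

theorem stmt_D : Stmt_D := by
  intro L _ _ ℓ P hℓ hP hℓP
  obtain ⟨V, hV⟩ := D_exists_valuationSubring L P hP.ne_top
  have hlV : (ℓ : AlgebraicClosure ℚ) ∈ V.nonunits := by
    have := hV _ hℓP
    simpa using this
  obtain ⟨σ, hσ, hσb⟩ := D_exists_frobenius_at V hℓ hlV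
  refine ⟨V, σ, hlV, hσ, fun x => ?_⟩
  -- `P` is the contraction of the prime of `ℤ̄` cut out by `V`
  have hP0 : P ≠ ⊥ := by
    intro h
    rw [h, Ideal.mem_bot] at hℓP
    have : (ℓ : 𝓞 L) ≠ 0 := by exact_mod_cast hℓ.ne_zero
    exact this hℓP
  have hmax : P.IsMaximal := hP.isMaximal hP0
  have hle : P ≤ (primeOf V).comap (D_j L) := by
    intro z hz
    rw [Ideal.mem_comap, mem_primeOf]
    exact hV z hz
  have hne : (primeOf V).comap (D_j L) ≠ ⊤ := (Ideal.comap_isPrime _ _).ne_top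
  have heq : P = (primeOf V).comap (D_j L) := hmax.eq_of_le hne hle
  rw [heq, Ideal.mem_comap]
  have h1 := hσb (D_j L x)
  have h2 : D_j L ((σ.restrictNormal L) • x - x ^ ℓ) = σ • (D_j L x) - (D_j L x) ^ ℓ := by
    rw [map_sub, map_pow]
    congr 1
    apply Subtype.ext
    rw [coe_smul_Zbar, D_coe_j, D_coe_j]
    exact AlgEquiv.restrictNormal_commutes σ L (x : L)
  rw [h2]
  exact h1

end Fermat.Agent.FD
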