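/-
FD, final glue (helper4): `Stmt_FD` from `Stmt_FDfin` and `Stmt_D`.
-/
import Fermat.Agent.FD.Interface

set_option autoImplicit false

namespace Fermat.Agent.FD

open NumberField

theorem fd_of (hfin : Stmt_FDfin) (hD : Stmt_D) : Stmt_FD := by
  intro L _ _ g S
  have : NumberField L := { to_charZero := inferInstance, to_finiteDimensional := inferInstance }
  have : IsGalois ℚ L := { }
  obtain ⟨ℓ, hℓ, hℓS, P, hP, hℓP, h, -, huniq, hz⟩ := hfin L (g.restrictNormal L) S
  obtain ⟨A, σ, hA, hσ, hσP⟩ := hD L ℓ P hℓ hP hℓP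
  have e : σ.restrictNormal L = h := huniq _ hσP
  rw [← e] at hz
  have h1 : g.restrictNormal L ∈ Subgroup.zpowers (σ.restrictNormal L) := by
    rw [hz]; exact Subgroup.mem_zpowers _
  have h2 : σ.restrictNormal L ∈ Subgroup.zpowers (g.restrictNormal L) := by
    rw [← hz]; exact Subgroup.mem_zpowers _
  rw [← mem_powers_iff_mem_zpowers] at h1 h2
  obtain ⟨k, hk⟩ := h1
  obtain ⟨k', hk'⟩ := h2
  have key : ∀ (a b : AlgebraicClosure ℚ ≃ₐ[ℚ] AlgebraicClosure ℚ) (m : ℕ),
      (a.restrictNormal L) ^ m = b.restrictNormal L → ∀ x ∈ L, b x = (a ^ m) x := by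
    intro a b m hab x hx
    have h3 : (a ^ m).restrictNormal L = b.restrictNormal L := by
      rw [← hab]
      exact map_pow (AlgEquiv.restrictNormalHom L) a m
    have h4 := AlgEquiv.restrictNormal_commutes b L ⟨x, hx⟩
    have h5 := AlgEquiv.restrictNormal_commutes (a ^ m) L ⟨x, hx⟩
    rw [h3, h4] at h5
    exact h5
  exact ⟨ℓ, A, σ, k, k', hℓ, hℓS, hA, hσ, key σ g k hk, key g σ k' hk'⟩

end Fermat.Agent.FD
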