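/-
FD = Frobenius density theorem, existence form: final theorems (helper4).

* `stmt_FD : Stmt_FD`  (for finite normal `L ⊆ ℚ̄`)
* `frobenius_density`  (for arbitrary finite `L ⊆ ℚ̄`)
-/
import Fermat.Agent.FD.A
import Fermat.Agent.FD.B1x
import Fermat.Agent.FD.B2
import Fermat.Agent.FD.B3
import Fermat.Agent.FD.B
import Fermat.Agent.FD.C
import Fermat.Agent.FD.D
import Fermat.Agent.FD.Glue

set_option autoImplicit false

namespace Fermat.Agent.FD

theorem stmt_B : Stmt_B := stmt_B_of B1x_stmt stmt_B2 stmt_B3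

theorem stmt_FDfin : Stmt_FDfin := fdfin_of stmt_A stmt_B

theorem stmt_FD : Stmt_FD := fd_of stmt_FDfin stmt_D

/-- **Frobenius density theorem**, existence form.  For a finite extension `L ⊆ ℚ̄` of `ℚ`, an
element `g` of the absolute Galois group and a finite set `S` of primes there are a prime
`ℓ ∉ S`, a valuation subring `A` of `ℚ̄` above `ℓ` and a Frobenius lift `σ` at `A` such that
`g` and `σ` generate the same cyclic group on `L`: `g = σ ^ k` and `σ = g ^ k'` on `L`. -/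
theorem frobenius_density (L : IntermediateField ℚ (AlgebraicClosure ℚ))
    [FiniteDimensional ℚ L] (g : AlgebraicClosure ℚ ≃ₐ[ℚ] AlgebraicClosure ℚ) (S : Finset ℕ) :
    ∃ (ℓ : ℕ) (A : ValuationSubring (AlgebraicClosure ℚ))
      (σ : AlgebraicClosure ℚ ≃ₐ[ℚ] AlgebraicClosure ℚ) (k k' : ℕ),
      ℓ.Prime ∧ ℓ ∉ S ∧ A.LiesOverPrime ℓ ∧ A.IsFrobeniusAt σ ℓ ∧
      (∀ x ∈ L, g x = (σ ^ k) x) ∧ (∀ x ∈ L, σ x = (g ^ k') x) := by
  have hN : Normal ℚ (IntermediateField.normalClosure ℚ L (AlgebraicClosure ℚ)) :=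
    normalClosure.normal _ _ _
  obtain ⟨ℓ, A, σ, k, k', h1, h2, h3, h4, h5, h6⟩ :=
    stmt_FD (IntermediateField.normalClosure ℚ L (AlgebraicClosure ℚ)) g S
  have hle : L ≤ IntermediateField.normalClosure ℚ L (AlgebraicClosure ℚ) :=
    IntermediateField.le_normalClosure L
  exact ⟨ℓ, A, σ, k, k', h1, h2, h3, h4, fun x hx => h5 x (hle hx), fun x hx => h6 x (hle hx)⟩

end Fermat.Agent.FD
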