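/-
FD package B1 (helper65): uniqueness of Frobenius elements at unramified primes.
-/
import Fermat.Agent.FD.Interface
import Fermat.Agent.S14.GL3

set_option autoImplicit false

namespace Fermat.Agent.FD

open NumberField Ideal Fermat.Agent.S14

/-- a prime ideal containing the prime number `ℓ` lies over `(ℓ)` -/
theorem B1_liesOver {L : Type} [Field L] [NumberField L] {ℓ : ℕ} (hℓ : ℓ.Prime)
    {P : Ideal (𝓞 L)} (hP : P.IsPrime) (hmem : (ℓ : 𝓞 L) ∈ P) : P.LiesOver (span {(ℓ : ℤ)}) := by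
  have : Fact ℓ.Prime := ⟨hℓ⟩
  have hmax : (span {(ℓ : ℤ)}).IsMaximal :=
    (GL3_isPrime_span ℓ).isMaximal (by
      rw [Ne, span_singleton_eq_bot]; exact_mod_cast hℓ.ne_zero)
  constructor
  refine hmax.eq_of_le (hP.under ℤ).ne_top ?_
  rw [span_singleton_le_iff_mem, mem_comap]
  simpa using hmem

/-- a prime above an unramified prime number has ramification index one -/
theorem B1_ramificationIdx {L : Type} [Field L] [NumberField L] {ℓ : ℕ} (hℓ : ℓ.Prime)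
    (hd : ¬ (ℓ : ℤ) ∣ discr L) {P : Ideal (𝓞 L)} (hP : P.IsPrime) (hmem : (ℓ : 𝓞 L) ∈ P) :
    P.ramificationIdx ℤ = 1 := by
  have := (not_dvd_discr_iff_forall_mem L (𝓞 L) (Nat.prime_iff_prime_int.mp hℓ)).mp hd P hP
    (by simpa using hmem)
  exact ramificationIdx_eq_one_of_isUnramifiedAt

/-- the inertia group at an unramified prime is trivial -/
theorem B1_inertia {L : Type} [Field L] [NumberField L] [IsGalois ℚ L] {ℓ : ℕ} (hℓ : ℓ.Prime)
    (hd : ¬ (ℓ : ℤ) ∣ discr L) {P : Ideal (𝓞 L)} (hP : P.IsPrime) (hmem : (ℓ : 𝓞 L) ∈ P)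
    (g : L ≃ₐ[ℚ] L) (hg : ∀ x : 𝓞 L, g • x - x ∈ P) : g = 1 := by
  have : Fact ℓ.Prime := ⟨hℓ⟩
  have := hP
  have := B1_liesOver hℓ hP hmem
  have h1 : Nat.card (P.inertia (L ≃ₐ[ℚ] L)) = 1 := by
    rw [card_inertia_eq_ramificationIdxIn (span {(ℓ : ℤ)}) P,
      ramificationIdxIn_eq_ramificationIdx (span {(ℓ : ℤ)}) P (L ≃ₐ[ℚ] L),
      B1_ramificationIdx hℓ hd hP hmem]
  have h2 : Subsingleton (P.inertia (L ≃ₐ[ℚ] L)) := (Nat.card_eq_one_iff_unique.mp h1).1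
  have h3 : (⟨g, hg⟩ : P.inertia (L ≃ₐ[ℚ] L)) = 1 := Subsingleton.elim _ _
  exact congrArg Subtype.val h3

theorem stmt_B1 : Stmt_B1 := by
  intro L _ _ _ ℓ hℓ hd P hP hmem h h' hh hh'
  have h1 : h * h'⁻¹ = 1 := by
    apply B1_inertia hℓ hd hP hmem
    intro x
    have h2 := sub_mem (hh (h'⁻¹ • x)) (hh' (h'⁻¹ • x))
    simpa [mul_smul] using h2
  exact mul_inv_eq_one.mp h1

end Fermat.Agent.FD
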